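/-
Programme MAZ (S15), row 710 F-D2' part (NP) (helper58; design = report 1112 (D2') by helper86):
**Newton polygon smoothness for a bivariate polynomial of the shape of the modular polynomial `Φ_p`.**

`K` a field with a valuation `v` ("2-adic": `v m ≤ 1` for naturals, `v p = 1`, `v (p + 1) < 1`),
`Ψ ∈ K[X][Y]` (inner variable `X`, outer variable `Y`) of SHAPE `NPShape v p Ψ`:
all coefficients `v`-integral, `X`- and `Y`-degrees `≤ p + 1`, the coefficient of `Y^(p+1)` is a `v`-unit
constant, the coefficient of `X^(p+1)` is a `v`-unit constant, the coefficient of `X^p Y^p` is a `v`-unit.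
If `Ψ(a, b) = 0` with `1 < v a` then `1 < v b` and `v b = (v a)^p` or `(v b)^p = v a`; in the first case
`∂Ψ/∂Y (a, b) ≠ 0`, in the second `∂Ψ/∂X (a, b) ≠ 0` (stated through `Polynomial.Bivariate.swap`).
Mathlib only.
-/
import Mathlib

set_option autoImplicit false

open Polynomial

namespace Fermat.Agent.MAZ.NP58

section Generic

theorem natDegree_lt_of_coeff_zero {R : Type*} [Semiring R] {f : Polynomial R} {N : ℕ} (hN : 0 < N)
    (h : ∀ m, N ≤ m → f.coeff m = 0) : f.natDegree < N := by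
  by_contra hcon
  push Not at hcon
  have h1 := h _ hcon
  have h2 : f = 0 := Polynomial.leadingCoeff_eq_zero.1 h1
  rw [h2, Polynomial.natDegree_zero] at hcon
  omega

variable {K : Type*} [Field K]

/-- A bivariate polynomial evaluated at a point, as a double sum. -/
theorem evalEval_eq_sum (Ψ : Polynomial (Polynomial K)) (N : ℕ) (hN : 0 < N)
    (hdeg : ∀ i k, (N ≤ i ∨ N ≤ k) → (Ψ.coeff k).coeff i = 0) (a b : K) :
    Ψ.evalEval a b = ∑ x ∈ Finset.range N ×ˢ Finset.range N,
      (Ψ.coeff x.2).coeff x.1 * a ^ x.1 * b ^ x.2 := by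
  have h1 : Ψ.natDegree < N := natDegree_lt_of_coeff_zero hN fun m hm => by
    ext i
    rw [hdeg i m (Or.inr hm), Polynomial.coeff_zero]
  have h2 : ∀ k, (Ψ.coeff k).natDegree < N := fun k =>
    natDegree_lt_of_coeff_zero hN fun m hm => hdeg m k (Or.inl hm)
  rw [Polynomial.evalEval, Polynomial.eval_eq_sum_range' h1, Polynomial.eval_finsetSum,
    Finset.sum_product_right]
  refine Finset.sum_congr rfl fun k _ => ?_
  rw [Polynomial.eval_mul, Polynomial.eval_pow, Polynomial.eval_C,
    Polynomial.eval_eq_sum_range' (h2 k), Finset.sum_mul]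

/-- Coefficients of the swapped polynomial. -/
theorem coeff_coeff_swap (Ψ : Polynomial (Polynomial K)) (i k : ℕ) :
    ((Polynomial.Bivariate.swap Ψ).coeff k).coeff i = (Ψ.coeff i).coeff k := by
  induction Ψ using Polynomial.induction_on' with
  | add f g hf hg => rw [map_add, Polynomial.coeff_add, Polynomial.coeff_add, hf, hg,
      Polynomial.coeff_add, Polynomial.coeff_add]
  | monomial n f =>
    induction f using Polynomial.induction_on' with
    | add f g hf hg => rw [map_add, map_add, Polynomial.coeff_add, Polynomial.coeff_add, hf, hg,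
        Polynomial.coeff_add, Polynomial.coeff_add]
    | monomial m r =>
      rw [Polynomial.Bivariate.swap_monomial_monomial]
      by_cases h1 : m = k <;> by_cases h2 : n = i <;> simp [Polynomial.coeff_monomial, h1, h2]

theorem evalEval_swap (Ψ : Polynomial (Polynomial K)) (a b : K) :
    (Polynomial.Bivariate.swap Ψ).evalEval b a = Ψ.evalEval a b := by
  have h := Polynomial.Bivariate.aevalAeval_swap (R := K) (A := K) b a Ψ
  rw [← Polynomial.coe_aevalAeval_eq_evalEval, ← Polynomial.coe_aevalAeval_eq_evalEval]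
  exact h

end Generic

section Newton

variable {K : Type*} [Field K] {Γ₀ : Type*} [LinearOrderedCommGroupWithZero Γ₀]

/-- The shape of the modular polynomial `Φ_p` (inner variable `X`, outer variable `Y`), relative to a
valuation `v`. -/
structure NPShape (v : Valuation K Γ₀) (p : ℕ) (Ψ : Polynomial (Polynomial K)) : Prop where
  int : ∀ i k, v ((Ψ.coeff k).coeff i) ≤ 1
  deg : ∀ i k, (p + 1 < i ∨ p + 1 < k) → (Ψ.coeff k).coeff i = 0
  topY : ∀ i, 0 < i → (Ψ.coeff (p + 1)).coeff i = 0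
  topY0 : v ((Ψ.coeff (p + 1)).coeff 0) = 1
  topX : ∀ k, 0 < k → (Ψ.coeff k).coeff (p + 1) = 0
  topX0 : v ((Ψ.coeff 0).coeff (p + 1)) = 1
  mid : v ((Ψ.coeff p).coeff p) = 1

theorem NPShape.swap {v : Valuation K Γ₀} {p : ℕ} {Ψ : Polynomial (Polynomial K)}
    (h : NPShape v p Ψ) : NPShape v p (Polynomial.Bivariate.swap Ψ) where
  int i k := by rw [coeff_coeff_swap]; exact h.int k i
  deg i k hik := by rw [coeff_coeff_swap]; exact h.deg k i hik.symm
  topY i hi := by rw [coeff_coeff_swap]; exact h.topX i hi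
  topY0 := by rw [coeff_coeff_swap]; exact h.topX0
  topX k hk := by rw [coeff_coeff_swap]; exact h.topY k hk
  topX0 := by rw [coeff_coeff_swap]; exact h.topY0
  mid := by rw [coeff_coeff_swap]; exact h.mid

/-- **Newton polygon of `Ψ(a, Y)`**: a zero `(a, b)` with `1 < v a` has `v b = (v a)^p` or
`(v b)^p = v a`. -/
theorem val_cases (v : Valuation K Γ₀) {p : ℕ} (hp : 2 ≤ p) {Ψ : Polynomial (Polynomial K)}
    (hΨ : NPShape v p Ψ) {a b : K} (ha : 1 < v a) (h0 : Ψ.evalEval a b = 0) :
    1 < v b ∧ (v b = v a ^ p ∨ v b ^ p = v a) := by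
  classical
  set α := v a with hα
  set β := v b with hβ
  set I := Finset.range (p + 2) ×ˢ Finset.range (p + 2) with hI
  set t : ℕ × ℕ → K := fun x => (Ψ.coeff x.2).coeff x.1 * a ^ x.1 * b ^ x.2 with ht
  have hsum : ∑ x ∈ I, t x = 0 := by
    rw [← h0, evalEval_eq_sum Ψ (p + 2) (by omega) (fun i k hik => hΨ.deg i k (by omega)) a b]
  have hα0 : 0 < α := lt_trans zero_lt_one ha
  have hvt : ∀ x : ℕ × ℕ, v (t x) = v ((Ψ.coeff x.2).coeff x.1) * α ^ x.1 * β ^ x.2 := by
    intro x
    simp only [ht, map_mul, map_pow]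
    rfl
  have hle : ∀ x : ℕ × ℕ, v (t x) ≤ α ^ x.1 * β ^ x.2 := by
    intro x
    rw [hvt, mul_assoc]
    exact mul_le_of_le_one_left' (hΨ.int _ _)
  have hz1 : ∀ k, 0 < k → t (p + 1, k) = 0 := by
    intro k hk
    simp only [ht]
    rw [hΨ.topX k hk, zero_mul, zero_mul]
  have hz2 : ∀ i, 0 < i → t (i, p + 1) = 0 := by
    intro i hi
    simp only [ht]
    rw [hΨ.topY i hi, zero_mul, zero_mul]
  have hA : v (t (0, p + 1)) = β ^ (p + 1) := by
    rw [hvt]
    simp only [hΨ.topY0, pow_zero, one_mul]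
  have hB : v (t (p + 1, 0)) = α ^ (p + 1) := by
    rw [hvt]
    simp only [hΨ.topX0, pow_zero, one_mul, mul_one]
  have hC : v (t (p, p)) = α ^ p * β ^ p := by
    rw [hvt]
    simp only [hΨ.mid, one_mul]
  have hmemA : ((0, p + 1) : ℕ × ℕ) ∈ I :=
    Finset.mem_product.2 ⟨Finset.mem_range.2 (by omega), Finset.mem_range.2 (by omega)⟩
  have hmemB : ((p + 1, 0) : ℕ × ℕ) ∈ I :=
    Finset.mem_product.2 ⟨Finset.mem_range.2 (by omega), Finset.mem_range.2 (by omega)⟩
  have hmemC : ((p, p) : ℕ × ℕ) ∈ I :=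
    Finset.mem_product.2 ⟨Finset.mem_range.2 (by omega), Finset.mem_range.2 (by omega)⟩
  have hmem : ∀ i k : ℕ, ((i, k) : ℕ × ℕ) ∈ I → i < p + 2 ∧ k < p + 2 := by
    intro i k h
    have h' := Finset.mem_product.1 h
    exact ⟨Finset.mem_range.1 h'.1, Finset.mem_range.1 h'.2⟩
  -- a strictly dominant term is impossible
  have dom : ∀ j ∈ I, (∀ x ∈ I, x ≠ j → v (t x) < v (t j)) → v (t j) = 0 := by
    intro j hj h
    have h1 := Valuation.map_sum_eq_of_lt v hj (f := t) (fun i hi =>
      h i (Finset.mem_sdiff.1 hi).1 (by simpa using (Finset.mem_sdiff.1 hi).2))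
    rw [hsum, map_zero] at h1
    exact h1.symm
  -- Step 1: `1 < β`
  have hβ1 : 1 < β := by
    by_contra hb
    push Not at hb
    have h := dom (p + 1, 0) hmemB ?_
    · rw [hB] at h
      exact (pow_ne_zero _ hα0.ne') h
    · rintro ⟨i, k⟩ hx hne
      rw [hB]
      obtain ⟨hi, hk⟩ := hmem i k hx
      by_cases hip : i = p + 1
      · subst hip
        have hk0 : 0 < k := by
          rcases Nat.eq_zero_or_pos k with h | h
          · exact absurd (by rw [h]) hne
          · exact h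
        rw [hz1 k hk0, map_zero]
        exact pow_pos hα0 _
      · have hip' : i ≤ p := by omega
        calc v (t (i, k)) ≤ α ^ i * β ^ k := hle _
          _ ≤ α ^ p * 1 := mul_le_mul' (pow_le_pow_right₀ ha.le hip') (pow_le_one₀ zero_le hb)
          _ = α ^ p := mul_one _
          _ < α ^ (p + 1) := pow_lt_pow_right₀ ha (Nat.lt_succ_self p)
  have hβ0 : 0 < β := lt_trans zero_lt_one hβ1
  have hCpos : 0 < α ^ p * β ^ p := mul_pos (pow_pos hα0 _) (pow_pos hβ0 _)
  -- Step 2: the other terms are strictly below `C`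
  have hothers : ∀ x ∈ I, x ≠ (0, p + 1) → x ≠ (p + 1, 0) → x ≠ (p, p) →
      v (t x) < α ^ p * β ^ p := by
    rintro ⟨i, k⟩ hx h1 h2 h3
    obtain ⟨hi, hk⟩ := hmem i k hx
    by_cases hip : i = p + 1
    · subst hip
      have hk0 : 0 < k := by
        rcases Nat.eq_zero_or_pos k with h | h
        · exact absurd (by rw [h]) h2
        · exact h
      rw [hz1 k hk0, map_zero]
      exact hCpos
    by_cases hkp : k = p + 1
    · subst hkp
      have hi0 : 0 < i := by
        rcases Nat.eq_zero_or_pos i with h | h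
        · exact absurd (by rw [h]) h1
        · exact h
      rw [hz2 i hi0, map_zero]
      exact hCpos
    have hip' : i ≤ p := by omega
    have hkp' : k ≤ p := by omega
    refine lt_of_le_of_lt (hle _) ?_
    by_cases hi2 : i = p
    · subst hi2
      have hk2 : k < i := by
        rcases Nat.lt_or_ge k i with h | h
        · exact h
        · exact absurd (by rw [le_antisymm hkp' h]) h3
      exact mul_lt_mul_of_pos_left (pow_lt_pow_right₀ hβ1 hk2) (pow_pos hα0 _)
    · have hi3 : i < p := lt_of_le_of_ne hip' hi2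
      exact mul_lt_mul (pow_lt_pow_right₀ ha hi3) (pow_le_pow_right₀ hβ1.le hkp')
        (pow_pos hβ0 _) (pow_pos hα0 _).le
  have hnA : ¬ (α ^ (p + 1) < β ^ (p + 1) ∧ α ^ p * β ^ p < β ^ (p + 1)) := by
    rintro ⟨h1, h2⟩
    have h := dom (0, p + 1) hmemA ?_
    · rw [hA] at h
      exact (pow_ne_zero _ hβ0.ne') h
    · intro x hx hne
      rw [hA]
      by_cases hx2 : x = (p + 1, 0)
      · rw [hx2, hB]
        exact h1
      by_cases hx3 : x = (p, p)
      · rw [hx3, hC]
        exact h2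
      exact lt_trans (hothers x hx hne hx2 hx3) h2
  have hnB : ¬ (β ^ (p + 1) < α ^ (p + 1) ∧ α ^ p * β ^ p < α ^ (p + 1)) := by
    rintro ⟨h1, h2⟩
    have h := dom (p + 1, 0) hmemB ?_
    · rw [hB] at h
      exact (pow_ne_zero _ hα0.ne') h
    · intro x hx hne
      rw [hB]
      by_cases hx2 : x = (0, p + 1)
      · rw [hx2, hA]
        exact h1
      by_cases hx3 : x = (p, p)
      · rw [hx3, hC]
        exact h2
      exact lt_trans (hothers x hx hx2 hne hx3) h2
  have hnC : ¬ (β ^ (p + 1) < α ^ p * β ^ p ∧ α ^ (p + 1) < α ^ p * β ^ p) := by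
    rintro ⟨h1, h2⟩
    have h := dom (p, p) hmemC ?_
    · rw [hC] at h
      exact hCpos.ne' h
    · intro x hx hne
      rw [hC]
      by_cases hx2 : x = (0, p + 1)
      · rw [hx2, hA]
        exact h1
      by_cases hx3 : x = (p + 1, 0)
      · rw [hx3, hB]
        exact h2
      exact hothers x hx hx2 hx3 hne
  have hp1 : 1 ≤ p := by omega
  refine ⟨hβ1, ?_⟩
  rcases not_and_or.1 hnC with h | h
  · -- `C ≤ A`, i.e. `α ^ p ≤ β`
    rw [not_lt] at h
    have h1 : α ^ p ≤ β := by
      by_contra hcon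
      push Not at hcon
      have : β ^ (p + 1) < α ^ p * β ^ p := by
        rw [pow_succ, mul_comm]
        exact mul_lt_mul_of_pos_right hcon (pow_pos hβ0 _)
      exact absurd h (not_le.2 this)
    rcases eq_or_lt_of_le h1 with h2 | h2
    · exact Or.inl h2.symm
    · exfalso
      apply hnA
      constructor
      · have h3 : α < β := lt_of_le_of_lt (by simpa using pow_le_pow_right₀ ha.le hp1) h2
        exact pow_lt_pow_left₀ h3 hα0.le (by omega)
      · rw [pow_succ, mul_comm]
        exact mul_lt_mul_of_pos_left h2 (pow_pos hβ0 _)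
  · -- `C ≤ B`, i.e. `β ^ p ≤ α`
    rw [not_lt] at h
    have h1 : β ^ p ≤ α := by
      by_contra hcon
      push Not at hcon
      have : α ^ (p + 1) < α ^ p * β ^ p := by
        rw [pow_succ]
        exact mul_lt_mul_of_pos_left hcon (pow_pos hα0 _)
      exact absurd h (not_le.2 this)
    rcases eq_or_lt_of_le h1 with h2 | h2
    · exact Or.inr h2
    · exfalso
      apply hnB
      constructor
      · have h3 : β < α := lt_of_le_of_lt (by simpa using pow_le_pow_right₀ hβ1.le hp1) h2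
        exact pow_lt_pow_left₀ h3 hβ0.le (by omega)
      · rw [pow_succ]
        exact mul_lt_mul_of_pos_left h2 (pow_pos hα0 _)

/-- Coefficients of the `Y`-derivative. -/
theorem coeff_coeff_derivative (Ψ : Polynomial (Polynomial K)) (i k : ℕ) :
    ((derivative Ψ).coeff k).coeff i = (Ψ.coeff (k + 1)).coeff i * ((k + 1 : ℕ) : K) := by
  rw [Polynomial.coeff_derivative, ← Nat.cast_succ, Polynomial.coeff_mul_natCast]

/-- **The `Y`-derivative on the steep segment**: if `v b = (v a)^p` then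
`v (∂Ψ/∂Y (a, b)) = (v a)^(p²)`. -/
theorem val_derivative (v : Valuation K Γ₀) {p : ℕ} (hp : 2 ≤ p) (hnat : ∀ m : ℕ, v (m : K) ≤ 1)
    (hvp : v (p : K) = 1) (hvn : v ((p + 1 : ℕ) : K) < 1) {Ψ : Polynomial (Polynomial K)}
    (hΨ : NPShape v p Ψ) {a b : K} (ha : 1 < v a) (hb : v b = v a ^ p) :
    v ((derivative Ψ).evalEval a b) = v a ^ (p * p) := by
  classical
  set α := v a with hα
  set I := Finset.range (p + 2) ×ˢ Finset.range (p + 2) with hI
  set s : ℕ × ℕ → K := fun x => ((derivative Ψ).coeff x.2).coeff x.1 * a ^ x.1 * b ^ x.2 with hs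
  have hα0 : 0 < α := lt_trans zero_lt_one ha
  have hsum : (derivative Ψ).evalEval a b = ∑ x ∈ I, s x := by
    rw [evalEval_eq_sum (derivative Ψ) (p + 2) (by omega) (fun i k hik => ?_) a b]
    rw [coeff_coeff_derivative, hΨ.deg i (k + 1) (by omega), zero_mul]
  have hvs : ∀ x : ℕ × ℕ, v (s x) =
      v ((Ψ.coeff (x.2 + 1)).coeff x.1) * v ((x.2 + 1 : ℕ) : K) * α ^ (x.1 + p * x.2) := by
    intro x
    simp only [hs, coeff_coeff_derivative, map_mul, map_pow, hb]
    rw [pow_add, pow_mul, ← mul_assoc]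
  have hmem : ∀ i k : ℕ, ((i, k) : ℕ × ℕ) ∈ I → i < p + 2 ∧ k < p + 2 := by
    intro i k h
    have h' := Finset.mem_product.1 h
    exact ⟨Finset.mem_range.1 h'.1, Finset.mem_range.1 h'.2⟩
  have hj : ((p, p - 1) : ℕ × ℕ) ∈ I :=
    Finset.mem_product.2 ⟨Finset.mem_range.2 (by omega), Finset.mem_range.2 (by omega)⟩
  have hpp : p - 1 + 1 = p := by omega
  have hexp : p + p * (p - 1) = p * p := by
    obtain ⟨q, rfl⟩ : ∃ q, p = q + 1 := ⟨p - 1, by omega⟩
    simp only [Nat.add_sub_cancel]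
    ring
  have hvj : v (s (p, p - 1)) = α ^ (p * p) := by
    rw [hvs]
    simp only [hpp, hΨ.mid, hvp, one_mul, hexp]
  rw [hsum, Valuation.map_sum_eq_of_lt v hj (f := s), hvj]
  intro x hx
  obtain ⟨hxI, hxne⟩ := Finset.mem_sdiff.1 hx
  have hxne' : x ≠ (p, p - 1) := by simpa using hxne
  obtain ⟨i, k⟩ := x
  obtain ⟨hi, hk⟩ := hmem i k hxI
  rw [hvj, hvs]
  have hpos : 0 < α ^ (p * p) := pow_pos hα0 _
  show v ((Ψ.coeff (k + 1)).coeff i) * v ((k + 1 : ℕ) : K) * α ^ (i + p * k) < α ^ (p * p)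
  by_cases hk1 : k = p + 1
  · subst hk1
    rw [hΨ.deg i (p + 1 + 1) (Or.inr (by omega)), map_zero, zero_mul, zero_mul]
    exact hpos
  by_cases hk2 : k = p
  · subst hk2
    rcases Nat.eq_zero_or_pos i with hi0 | hi0
    · subst hi0
      rw [hΨ.topY0, one_mul, zero_add]
      calc v ((k + 1 : ℕ) : K) * α ^ (k * k) < 1 * α ^ (k * k) :=
            mul_lt_mul_of_pos_right hvn hpos
        _ = α ^ (k * k) := one_mul _
    · rw [hΨ.topY i hi0, map_zero, zero_mul, zero_mul]
      exact hpos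
  have hk3 : k ≤ p - 1 := by omega
  by_cases hi1 : i = p + 1
  · subst hi1
    rw [hΨ.topX (k + 1) (Nat.succ_pos k), map_zero, zero_mul, zero_mul]
    exact hpos
  have hi2 : i ≤ p := by omega
  have hlt : i + p * k < p * p := by
    rw [← hexp]
    rcases Nat.lt_or_ge k (p - 1) with h | h
    · have h1 : p * k + p ≤ p * (p - 1) := by
        calc p * k + p = p * (k + 1) := by ring
          _ ≤ p * (p - 1) := Nat.mul_le_mul_left p h
      omega
    · have hk4 : k = p - 1 := le_antisymm hk3 h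
      have hi3 : i ≠ p := fun h' => hxne' (by rw [h', hk4])
      rw [hk4]
      omega
  calc v ((Ψ.coeff (k + 1)).coeff i) * v ((k + 1 : ℕ) : K) * α ^ (i + p * k)
      ≤ 1 * 1 * α ^ (i + p * k) :=
        mul_le_mul' (mul_le_mul' (hΨ.int _ _) (hnat _)) le_rfl
    _ = α ^ (i + p * k) := by rw [one_mul, one_mul]
    _ < α ^ (p * p) := pow_lt_pow_right₀ ha hlt

/-- **(NP), general valuation form**: a zero `(a, b)` of `Ψ` with `1 < v a` is a SMOOTH point:
`∂Ψ/∂Y (a, b) ≠ 0` or `∂Ψ/∂X (a, b) ≠ 0` (the latter through `swap`). -/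
theorem smooth_of_shape (v : Valuation K Γ₀) {p : ℕ} (hp : 2 ≤ p) (hnat : ∀ m : ℕ, v (m : K) ≤ 1)
    (hvp : v (p : K) = 1) (hvn : v ((p + 1 : ℕ) : K) < 1) {Ψ : Polynomial (Polynomial K)}
    (hΨ : NPShape v p Ψ) {a b : K} (ha : 1 < v a) (h0 : Ψ.evalEval a b = 0) :
    (v b = v a ^ p ∧ (derivative Ψ).evalEval a b ≠ 0) ∨
      (v b ^ p = v a ∧ (derivative (Polynomial.Bivariate.swap Ψ)).evalEval b a ≠ 0) := by
  obtain ⟨hb1, hb | hb⟩ := val_cases v hp hΨ ha h0
  · refine Or.inl ⟨hb, fun h => ?_⟩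
    have h1 := val_derivative v hp hnat hvp hvn hΨ ha hb
    rw [h, map_zero] at h1
    exact (pow_ne_zero _ (lt_trans zero_lt_one ha).ne') h1.symm
  · refine Or.inr ⟨hb, fun h => ?_⟩
    have h1 := val_derivative v hp hnat hvp hvn hΨ.swap hb1 hb.symm
    rw [h, map_zero] at h1
    exact (pow_ne_zero _ (lt_trans zero_lt_one hb1).ne') h1.symm

end Newton

section TwoAdic

/-- The integral shape of the modular polynomial `Φ_p ∈ ℤ[X][Y]` (inner variable `X`, outer `Y`):
degrees `≤ p + 1` in both variables, monic in `Y`, the coefficient of `X^(p+1)` is `1` (only in the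
constant term with respect to `Y`), the coefficient of `X^p Y^p` is `-1`. -/
structure PhiShape (p : ℕ) (Φ : Polynomial (Polynomial ℤ)) : Prop where
  deg : ∀ i k, (p + 1 < i ∨ p + 1 < k) → (Φ.coeff k).coeff i = 0
  topY : Φ.coeff (p + 1) = 1
  topX : ∀ k, (Φ.coeff k).coeff (p + 1) = if k = 0 then 1 else 0
  mid : (Φ.coeff p).coeff p = -1

/-- Base change of an integral bivariate polynomial to `ℚ`. -/
noncomputable def toRat (Φ : Polynomial (Polynomial ℤ)) : Polynomial (Polynomial ℚ) :=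
  Φ.map (Polynomial.mapRingHom (Int.castRingHom ℚ))

theorem coeff_coeff_toRat (Φ : Polynomial (Polynomial ℤ)) (i k : ℕ) :
    ((toRat Φ).coeff k).coeff i = (((Φ.coeff k).coeff i : ℤ) : ℚ) := by
  rw [toRat, Polynomial.coeff_map, Polynomial.coe_mapRingHom, Polynomial.coeff_map]
  rfl

theorem padicValuation_intCast_le_one (z : ℤ) : Rat.padicValuation 2 (z : ℚ) ≤ 1 := by
  rw [Rat.padicValuation_cast]
  exact Int.padicValuation_le_one 2 z

theorem padicValuation_intCast_eq_one {z : ℤ} (hz : ¬ (2 : ℤ) ∣ z) :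
    Rat.padicValuation 2 (z : ℚ) = 1 := by
  rw [Rat.padicValuation_cast]
  exact Int.padicValuation_eq_one_iff.2 (by exact_mod_cast hz)

theorem padicValuation_intCast_lt_one {z : ℤ} (hz : (2 : ℤ) ∣ z) :
    Rat.padicValuation 2 (z : ℚ) < 1 := by
  refine lt_of_le_of_ne (padicValuation_intCast_le_one z) fun h => ?_
  rw [Rat.padicValuation_cast] at h
  exact (Int.padicValuation_eq_one_iff.1 h) (by exact_mod_cast hz)

theorem PhiShape.npShape {p : ℕ} {Φ : Polynomial (Polynomial ℤ)} (h : PhiShape p Φ) :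
    NPShape (Rat.padicValuation 2) p (toRat Φ) where
  int i k := by
    rw [coeff_coeff_toRat]
    exact padicValuation_intCast_le_one _
  deg i k hik := by rw [coeff_coeff_toRat, h.deg i k hik, Int.cast_zero]
  topY i hi := by
    rw [coeff_coeff_toRat, h.topY, Polynomial.coeff_one, if_neg hi.ne', Int.cast_zero]
  topY0 := by
    rw [coeff_coeff_toRat, h.topY, Polynomial.coeff_one_zero, Int.cast_one, map_one]
  topX k hk := by rw [coeff_coeff_toRat, h.topX k, if_neg hk.ne', Int.cast_zero]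
  topX0 := by rw [coeff_coeff_toRat, h.topX 0, if_pos rfl, Int.cast_one, map_one]
  mid := by
    rw [coeff_coeff_toRat, h.mid, Int.cast_neg, Int.cast_one, Valuation.map_neg, map_one]

/-- `1 < v₂ (c / d)` when `d` is even and `c` is odd. -/
theorem one_lt_padicValuation_div {c d : ℤ} (hd : d ≠ 0) (h2d : (2 : ℤ) ∣ d) (h2c : ¬ (2 : ℤ) ∣ c) :
    1 < Rat.padicValuation 2 ((c : ℚ) / (d : ℚ)) := by
  have hd0 : Rat.padicValuation 2 (d : ℚ) ≠ 0 := by
    rw [Ne, Rat.padicValuation_eq_zero_iff]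
    exact_mod_cast hd
  rw [map_div₀, padicValuation_intCast_eq_one h2c, one_div]
  exact (one_lt_inv₀ (zero_lt_iff.2 hd0)).2 (padicValuation_intCast_lt_one h2d)

/-- **(NP)** for `Φ_p` at `2`: a rational zero `(a, b)` of a polynomial of the shape of `Φ_p` (`p` odd)
with `v₂(a) < 0` is a smooth point of the plane curve `Φ_p = 0`. -/
theorem smooth_of_phiShape {p : ℕ} (hp : 2 ≤ p) (hodd : Odd p) {Φ : Polynomial (Polynomial ℤ)}
    (hΦ : PhiShape p Φ) {a b : ℚ} (ha : 1 < Rat.padicValuation 2 a)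
    (h0 : (toRat Φ).evalEval a b = 0) :
    (derivative (toRat Φ)).evalEval a b ≠ 0 ∨
      (derivative (Polynomial.Bivariate.swap (toRat Φ))).evalEval b a ≠ 0 := by
  have hnat : ∀ m : ℕ, Rat.padicValuation 2 ((m : ℕ) : ℚ) ≤ 1 := fun m => by
    have := padicValuation_intCast_le_one (m : ℤ)
    rwa [Int.cast_natCast] at this
  have hvp : Rat.padicValuation 2 ((p : ℕ) : ℚ) = 1 := by
    have := padicValuation_intCast_eq_one (z := (p : ℤ)) (by
      intro h
      have h2 : 2 ∣ p := by exact_mod_cast h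
      exact (Nat.not_even_iff_odd.2 hodd) (even_iff_two_dvd.2 h2))
    rwa [Int.cast_natCast] at this
  have hvn : Rat.padicValuation 2 (((p + 1 : ℕ) : ℕ) : ℚ) < 1 := by
    have := padicValuation_intCast_lt_one (z := ((p + 1 : ℕ) : ℤ)) (by
      have h2 : 2 ∣ p + 1 := even_iff_two_dvd.1 hodd.add_one
      exact_mod_cast h2)
    rwa [Int.cast_natCast] at this
  rcases smooth_of_shape (Rat.padicValuation 2) hp hnat hvp hvn hΦ.npShape ha h0 with h | h
  · exact Or.inl h.2
  · exact Or.inr h.2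

end TwoAdic

end Fermat.Agent.MAZ.NP58
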